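/-
S55 / 49-LOC-KUMMER-BR (helper86, second seat), part (A): **Hilbert 90 in the limit**.

Let a group `Γ` act on a field `Ω` through `f : Γ →* (Ω ≃ₐ[K₀] Ω)` and let `𝒰` be a level
structure on `Γ` all of whose levels are pointwise stabilisers of subsets of `Ω`.  Then the level
cohomology `𝒰.H1` of `Ωˣ` vanishes.  No Galois correspondence, no finite-level descent: the proof is
Dedekind's independence of characters applied directly to a level cocycle.
Mathlib + Profin15 only.
-/
import Mathlib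
import Fermat.Agent.S55.Profin15.Cohomology

set_option autoImplicit false

open CategoryTheory groupCohomology

namespace Fermat.Agent.S55.KummerBr86.Hilbert90Lim

open Fermat.Agent.S55.Profin15

section Core

variable {Γ : Type*} [Group Γ] {K₀ Ω : Type*} [Field K₀] [Field Ω] [Algebra K₀ Ω]
  (f : Γ →* (Ω ≃ₐ[K₀] Ω)) (V : Subgroup Γ)

/-- the multiplicative monoid of elements of `Ω` fixed by `V` -/
def fixedMonoid : Submonoid Ω where
  carrier := {x | ∀ s ∈ V, f s x = x}
  mul_mem' := fun {x y} hx hy s hs => by rw [map_mul, hx s hs, hy s hs]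
  one_mem' := fun s _ => map_one _

lemma mem_fixedMonoid {x : Ω} : x ∈ fixedMonoid f V ↔ ∀ s ∈ V, f s x = x := Iff.rfl

/-- restriction of `f g` to the fixed monoid, as a monoid hom to `Ω` -/
def resHom (g : Γ) : fixedMonoid f V →* Ω :=
  ((f g : Ω ≃ₐ[K₀] Ω) : Ω →* Ω).comp (fixedMonoid f V).subtype

@[simp] lemma resHom_apply (g : Γ) (a : fixedMonoid f V) : resHom f V g a = f g (a : Ω) := rfl

lemma resHom_mul_right (g : Γ) {s : Γ} (hs : s ∈ V) : resHom f V (g * s) = resHom f V g := by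
  ext a
  simp only [resHom_apply, map_mul, AlgEquiv.mul_apply]
  rw [a.2 s hs]

/-- the character of the coset `gV` -/
def cosetHom (q : Γ ⧸ V) : fixedMonoid f V →* Ω :=
  Quotient.liftOn' q (resHom f V) (fun g g' h => by
    rw [QuotientGroup.leftRel_apply] at h
    have : g' = g * (g⁻¹ * g') := by group
    rw [this, resHom_mul_right f V g h])

@[simp] lemma cosetHom_mk (g : Γ) : cosetHom f V (QuotientGroup.mk g) = resHom f V g := rfl

lemma cosetHom_injective (T : Set Ω) (hT : ∀ s : Γ, s ∈ V ↔ ∀ x ∈ T, f s x = x) :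
    Function.Injective (cosetHom f V) := by
  intro q q' h
  induction q using QuotientGroup.induction_on with | _ g => ?_
  induction q' using QuotientGroup.induction_on with | _ g' => ?_
  rw [cosetHom_mk, cosetHom_mk] at h
  rw [QuotientGroup.eq, hT]
  intro x hx
  have hxM : x ∈ fixedMonoid f V := fun s hs => (hT s).1 hs x hx
  have := DFunLike.congr_fun h ⟨x, hxM⟩
  simp only [resHom_apply] at this
  rw [map_mul, AlgEquiv.mul_apply, ← this, map_inv, AlgEquiv.aut_inv, AlgEquiv.symm_apply_apply]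

variable (c : Γ → Ωˣ)

/-- the summand `c(g) · g(a)` attached to the coset `gV` -/
def summand (hconst : ∀ g s, s ∈ V → c (g * s) = c g) (a : fixedMonoid f V) (q : Γ ⧸ V) : Ω :=
  Quotient.liftOn' q (fun g => (c g : Ω) * f g (a : Ω)) (fun g g' h => by
    rw [QuotientGroup.leftRel_apply] at h
    have e : g' = g * (g⁻¹ * g') := by group
    have h1 : c g' = c g := by rw [e]; exact hconst g _ h
    have h2 : f g' (a : Ω) = f g (a : Ω) := by
      rw [e, map_mul, AlgEquiv.mul_apply, a.2 _ h]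
    show (c g : Ω) * f g (a : Ω) = (c g' : Ω) * f g' (a : Ω)
    rw [h1, h2])

lemma summand_mk (hconst : ∀ g s, s ∈ V → c (g * s) = c g) (a : fixedMonoid f V) (g : Γ) :
    summand f V c hconst a (QuotientGroup.mk g) = (c g : Ω) * f g (a : Ω) := rfl

lemma summand_eq (hconst : ∀ g s, s ∈ V → c (g * s) = c g) (a : fixedMonoid f V) (q : Γ ⧸ V) :
    summand f V c hconst a q = (c (Quotient.out q) : Ω) * cosetHom f V q a := by
  have h : summand f V c hconst a (QuotientGroup.mk (Quotient.out q)) =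
      (c (Quotient.out q) : Ω) * cosetHom f V (QuotientGroup.mk (Quotient.out q)) a := rfl
  rwa [QuotientGroup.out_eq'] at h

/-- **Hilbert 90 for level cocycles**, multiplicative form. -/
theorem exists_units_of_cocycle [V.FiniteIndex] (T : Set Ω)
    (hT : ∀ s : Γ, s ∈ V ↔ ∀ x ∈ T, f s x = x)
    (hc : ∀ g h, c (g * h) = c g * Units.map ((f g : Ω ≃ₐ[K₀] Ω) : Ω →* Ω) (c h))
    (hconst : ∀ g s, s ∈ V → c (g * s) = c g) :
    ∃ b : Ωˣ, ∀ g, c g = Units.map ((f g : Ω ≃ₐ[K₀] Ω) : Ω →* Ω) b / b := by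
  classical
  let _ : Fintype (Γ ⧸ V) := Subgroup.fintypeQuotientOfFiniteIndex
  -- linear independence of the coset characters
  have hli : LinearIndependent Ω (fun q : Γ ⧸ V => (cosetHom f V q : fixedMonoid f V → Ω)) :=
    (linearIndependent_monoidHom (fixedMonoid f V) Ω).comp (cosetHom f V)
      (cosetHom_injective f V T hT)
  -- a point where the sum does not vanish
  obtain ⟨a, ha⟩ : ∃ a : fixedMonoid f V, ∑ q : Γ ⧸ V, summand f V c hconst a q ≠ 0 := by
    by_contra hne
    push Not at hne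
    have hz : ∑ q : Γ ⧸ V, ((c (Quotient.out q) : Ω)) •
        (cosetHom f V q : fixedMonoid f V → Ω) = 0 := by
      funext a
      rw [Finset.sum_apply]
      simp only [Pi.smul_apply, smul_eq_mul, Pi.zero_apply]
      rw [← hne a]
      exact Finset.sum_congr rfl fun q _ => (summand_eq f V c hconst a q).symm
    have := Fintype.linearIndependent_iff.1 hli _ hz (QuotientGroup.mk 1)
    exact (c _).ne_zero this
  set b₀ : Ω := ∑ q : Γ ⧸ V, summand f V c hconst a q with hb₀
  -- the transformation rule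
  have hrule : ∀ τ : Γ, f τ b₀ * (c τ : Ω) = b₀ := by
    intro τ
    rw [hb₀, map_sum, Finset.sum_mul]
    rw [← Equiv.sum_comp (MulAction.toPerm τ : Equiv.Perm (Γ ⧸ V))
      (fun q => summand f V c hconst a q)]
    refine Finset.sum_congr rfl fun q _ => ?_
    induction q using QuotientGroup.induction_on with | _ g => ?_
    have : (MulAction.toPerm τ : Equiv.Perm (Γ ⧸ V)) (QuotientGroup.mk g) =
        QuotientGroup.mk (τ * g) := rfl
    rw [this, summand_mk, summand_mk, hc τ g]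
    have e1 : f (τ * g) (a : Ω) = f τ (f g (a : Ω)) := by rw [map_mul]; rfl
    rw [e1, map_mul]
    simp only [Units.val_mul, Units.coe_map, MonoidHom.coe_coe]
    ring
  let b : Ωˣ := Units.mk0 b₀ ha
  refine ⟨b⁻¹, fun τ => ?_⟩
  apply Units.ext
  have h1 := hrule τ
  have hτb : f τ b₀ ≠ 0 := fun h => ha (by rw [← h1, h, zero_mul])
  simp only [Units.val_div_eq_div_val, Units.coe_map, MonoidHom.coe_coe, Units.val_inv_eq_inv_val,
    map_inv₀]
  show (c τ : Ω) = (f τ b₀)⁻¹ / b₀⁻¹
  field_simp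
  rw [mul_comm]
  exact h1

end Core

section RepForm

variable {Γ : Type} [Group Γ] {K₀ Ω : Type} [Field K₀] [Field Ω] [Algebra K₀ Ω]
  (f : Γ →* (Ω ≃ₐ[K₀] Ω)) (𝒰 : LevelStr Γ)

/-- the units of `Ω` as a `Γ`-module (additive notation), `Γ` acting through `f`. -/
noncomputable abbrev unitsRep : Rep ℤ Γ := Rep.res f (Rep.ofAlgebraAutOnUnits K₀ Ω)

lemma unitsRep_ρ_apply (g : Γ) (a : unitsRep f) :
    (unitsRep f).ρ g a = Additive.ofMul (Units.map ((f g : Ω ≃ₐ[K₀] Ω) : Ω →* Ω)
      (Additive.toMul (a : Additive Ωˣ))) := rfl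

/-- **Hilbert 90 in the limit**: a level 1-cocycle with values in `Ωˣ` is a coboundary, as soon
as every level is the pointwise stabiliser of a set. -/
theorem mem_coboundaries₁_of_mem_Z₁
    (hcl : ∀ V ∈ 𝒰.levels, ∃ T : Set Ω, ∀ s : Γ, s ∈ V ↔ ∀ x ∈ T, f s x = x)
    {c : Γ → unitsRep f} (hc : c ∈ 𝒰.Z₁ (unitsRep f)) : c ∈ coboundaries₁ (unitsRep f) := by
  obtain ⟨hcoc, V, hV, hconst⟩ := hc
  obtain ⟨T, hT⟩ := hcl V hV
  have hfin := 𝒰.finiteIndex V hV
  rw [SetLike.mem_coe, mem_cocycles₁_iff] at hcoc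
  obtain ⟨b, hb⟩ := exists_units_of_cocycle f V (fun g => Additive.toMul (c g : Additive Ωˣ)) T hT
    (fun g h => by
      have := hcoc g h
      rw [unitsRep_ρ_apply, add_comm] at this
      exact congrArg Additive.toMul this)
    (fun g s hs => congrArg Additive.toMul (hconst g s hs))
  refine ⟨(Additive.ofMul b : Additive Ωˣ), ?_⟩
  funext g
  rw [d₀₁_hom_apply, unitsRep_ρ_apply]
  exact (congrArg Additive.ofMul (hb g)).symm

/-- **Hilbert 90 in the limit**, cohomological form: `𝒰.H1 (Ωˣ) = 0`. -/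
theorem levelH1_units_eq_zero
    (hcl : ∀ V ∈ 𝒰.levels, ∃ T : Set Ω, ∀ s : Γ, s ∈ V ↔ ∀ x ∈ T, f s x = x)
    (x : 𝒰.H1 (unitsRep f)) : x = 0 := by
  obtain ⟨c, rfl⟩ := Submodule.mkQ_surjective _ x
  exact (𝒰.H1π_eq_zero_iff (unitsRep f) c).2 (mem_coboundaries₁_of_mem_Z₁ f 𝒰 hcl c.2)

theorem subsingleton_levelH1_units
    (hcl : ∀ V ∈ 𝒰.levels, ∃ T : Set Ω, ∀ s : Γ, s ∈ V ↔ ∀ x ∈ T, f s x = x) :
    Subsingleton (𝒰.H1 (unitsRep f)) :=
  ⟨fun x y => by rw [levelH1_units_eq_zero f 𝒰 hcl x, levelH1_units_eq_zero f 𝒰 hcl y]⟩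

end RepForm

end Fermat.Agent.S55.KummerBr86.Hilbert90Lim
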