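/-
S55 / 49-LOC-KUMMER-BR (helper86, second seat), part (B): the long-exact-sequence bookkeeping of
Kummer theory, abstractly over `Profin15.LevelStr.ShortExact`.

For `0 → A -φ→ B -ψ→ C → 0` (smooth `B`):
* `H¹(B) = 0 ⟹ H¹(A) ≃ H⁰(C) / ψ H⁰(B)` via the connecting map `δ⁰`;
* `H¹(C) = 0 ⟹ H²(A) ≃ ker (H²(B) → H²(C))` via `H²(φ)`.
Kummer specialisation (`C = B`, `ψ = r • id`): `H¹(A) ≃ B^G / r`, `H²(A) ≃ H²(B)[r]`.
Mathlib + Profin15 only.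
-/
import Mathlib
import Fermat.Agent.S55.Profin15.LES1

set_option autoImplicit false

universe u

open CategoryTheory groupCohomology

namespace Fermat.Agent.S55.KummerBr86.KummerLES

open Fermat.Agent.S55.Profin15 Fermat.Agent.S55.Profin15.LevelStr

variable {k G : Type u} [CommRing k] [Group G] (𝒰 : LevelStr G)
variable {A B C : Rep.{u} k G} {φ : A →ₗ[k] B} {ψ : B →ₗ[k] C}

section General

variable (h : ShortExact φ ψ) (hB : 𝒰.IsSmooth B)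
include hB

/-- if `H¹(B) = 0` the connecting map `δ⁰ : H⁰(C) → H¹(A)` is onto -/
theorem δ₀_surjective (h1B : ∀ x : 𝒰.H1 B, x = 0) : Function.Surjective (h.δ₀ 𝒰 hB) := fun x =>
  (h.exact_δ₀_H1map 𝒰 hB x).1 (h1B _)

/-- the kernel of `δ⁰` is the image of `H⁰(B)` -/
theorem ker_δ₀ : LinearMap.ker (h.δ₀ 𝒰 hB) = LinearMap.range (H0map ψ h.equivariant_right) :=
  LinearMap.exact_iff.1 (h.exact_H0map_δ₀ 𝒰 hB)

/-- if `H¹(C) = 0` then `H²(A) → H²(B)` is injective -/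
theorem H2map_injective (h1C : ∀ x : 𝒰.H1 C, x = 0) :
    Function.Injective (𝒰.H2map φ h.equivariant_left) := by
  rw [injective_iff_map_eq_zero]
  intro x hx
  obtain ⟨y, rfl⟩ := (h.exact_δ₁_H2map 𝒰 hB x).1 hx
  rw [h1C y, map_zero]

/-- the image of `H²(A)` in `H²(B)` is the kernel of `H²(B) → H²(C)` -/
theorem range_H2map : LinearMap.range (𝒰.H2map φ h.equivariant_left) =
    LinearMap.ker (𝒰.H2map ψ h.equivariant_right) :=
  (LinearMap.exact_iff.1 (h.exact_H2map_H2map 𝒰 hB)).symm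

/-- `H¹(A) ≃ H⁰(C) / ψ H⁰(B)` when `H¹(B) = 0`. -/
noncomputable def h1Equiv (h1B : ∀ x : 𝒰.H1 B, x = 0) :
    (↥(LevelStr.H0 C) ⧸ LinearMap.range (H0map ψ h.equivariant_right)) ≃ₗ[k] 𝒰.H1 A :=
  (Submodule.quotEquivOfEq _ _ (ker_δ₀ 𝒰 h hB).symm).trans
    ((h.δ₀ 𝒰 hB).quotKerEquivOfSurjective (δ₀_surjective 𝒰 h hB h1B))

@[simp] lemma h1Equiv_mk (h1B : ∀ x : 𝒰.H1 B, x = 0) (c : ↥(LevelStr.H0 C)) :
    h1Equiv 𝒰 h hB h1B (Submodule.Quotient.mk c) = h.δ₀ 𝒰 hB c := rfl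

/-- `H²(A) ≃ ker (H²(B) → H²(C))` when `H¹(C) = 0`. -/
noncomputable def h2Equiv (h1C : ∀ x : 𝒰.H1 C, x = 0) :
    𝒰.H2 A ≃ₗ[k] ↥(LinearMap.ker (𝒰.H2map ψ h.equivariant_right)) :=
  (LinearEquiv.ofInjective (𝒰.H2map φ h.equivariant_left) (H2map_injective 𝒰 h hB h1C)).trans
    (LinearEquiv.ofEq _ _ (range_H2map 𝒰 h hB))

@[simp] lemma coe_h2Equiv (h1C : ∀ x : 𝒰.H1 C, x = 0) (x : 𝒰.H2 A) :
    ((h2Equiv 𝒰 h hB h1C x : ↥(LinearMap.ker (𝒰.H2map ψ h.equivariant_right))) : 𝒰.H2 B) =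
      𝒰.H2map φ h.equivariant_left x := rfl

end General

section Scalar

variable (r : k)

/-- multiplication by `r` on a representation is equivariant -/
lemma isEquivariant_smul_id : IsEquivariant (r • LinearMap.id : B →ₗ[k] B) := fun g b => by
  simp only [LinearMap.smul_apply, LinearMap.id_coe, id_eq, map_smul]

lemma H0map_smul_id (x : ↥(LevelStr.H0 B)) :
    H0map (r • LinearMap.id : B →ₗ[k] B) (isEquivariant_smul_id r) x = r • x := by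
  apply Subtype.ext
  rfl

lemma H1map_smul_id (x : 𝒰.H1 B) :
    𝒰.H1map (r • LinearMap.id : B →ₗ[k] B) (isEquivariant_smul_id r) x = r • x := by
  obtain ⟨z, rfl⟩ := Submodule.mkQ_surjective _ x
  rw [H1map_H1π, ← map_smul]
  congr 1

lemma H2map_smul_id (x : 𝒰.H2 B) :
    𝒰.H2map (r • LinearMap.id : B →ₗ[k] B) (isEquivariant_smul_id r) x = r • x := by
  obtain ⟨z, rfl⟩ := Submodule.mkQ_surjective _ x
  rw [H2map_H2π, ← map_smul]
  congr 1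

variable {φ' : A →ₗ[k] B} (h : ShortExact φ' (r • LinearMap.id : B →ₗ[k] B))
  (hB : 𝒰.IsSmooth B)
include hB

/-- Kummer: the image of `H²(A)` in `H²(B)` is the `r`-torsion. -/
theorem mem_range_H2map_iff (x : 𝒰.H2 B) :
    x ∈ LinearMap.range (𝒰.H2map φ' h.equivariant_left) ↔ r • x = 0 := by
  rw [range_H2map 𝒰 h hB, LinearMap.mem_ker, H2map_smul_id]

/-- Kummer: `H²(A) ≃ H²(B)[r]` when `H¹(B) = 0`. -/
noncomputable def kummerH2Equiv (h1B : ∀ x : 𝒰.H1 B, x = 0) :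
    𝒰.H2 A ≃ₗ[k] ↥(Submodule.torsionBy k (𝒰.H2 B) r) :=
  (h2Equiv 𝒰 h hB h1B).trans (LinearEquiv.ofEq _ _ (by
    ext x
    rw [LinearMap.mem_ker, H2map_smul_id, Submodule.mem_torsionBy_iff]))

@[simp] lemma coe_kummerH2Equiv (h1B : ∀ x : 𝒰.H1 B, x = 0) (x : 𝒰.H2 A) :
    ((kummerH2Equiv 𝒰 r h hB h1B x : ↥(Submodule.torsionBy k (𝒰.H2 B) r)) : 𝒰.H2 B) =
      𝒰.H2map φ' h.equivariant_left x := rfl

/-- Kummer: `c ∈ B^G` has trivial Kummer class iff `c ∈ r • B^G`. -/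
theorem δ₀_eq_zero_iff (c : ↥(LevelStr.H0 B)) :
    h.δ₀ 𝒰 hB c = 0 ↔ ∃ b : ↥(LevelStr.H0 B), r • b = c := by
  rw [← LinearMap.mem_ker, ker_δ₀ 𝒰 h hB, LinearMap.mem_range]
  refine exists_congr fun b => ?_
  rw [H0map_smul_id]

/-- Kummer: `H¹(A) ≃ B^G / r B^G` when `H¹(B) = 0`. -/
noncomputable def kummerH1Equiv (h1B : ∀ x : 𝒰.H1 B, x = 0) :
    (↥(LevelStr.H0 B) ⧸ LinearMap.range (r • LinearMap.id : ↥(LevelStr.H0 B) →ₗ[k] ↥(LevelStr.H0 B))) ≃ₗ[k] 𝒰.H1 A :=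
  (Submodule.quotEquivOfEq _ _ (by
    ext x
    simp only [LinearMap.mem_range, LinearMap.smul_apply, LinearMap.id_coe, id_eq,
      H0map_smul_id])).trans (h1Equiv 𝒰 h hB h1B)

@[simp] lemma kummerH1Equiv_mk (h1B : ∀ x : 𝒰.H1 B, x = 0) (c : ↥(LevelStr.H0 B)) :
    kummerH1Equiv 𝒰 r h hB h1B (Submodule.Quotient.mk c) = h.δ₀ 𝒰 hB c := rfl

end Scalar

end Fermat.Agent.S55.KummerBr86.KummerLES
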