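/-
S55 / (A4) (helper86): a group that embeds additively into `ℚ/ℤ` has at most `p` elements killed
by `p`.  This is the step "`inv_K` injective ⟹ `|Br(K)[p]| ≤ p`" (`KummerBr95.BrTorsionBound`
from `LocInv28.Abstract.IsLocalInv.inv_injective`).  Mathlib only.
-/
import Mathlib

set_option autoImplicit false

namespace Fermat.Agent.S55.KummerBr86.TorsionCircle

/-- every element of `ℚ/ℤ` killed by `p > 0` is `k / p` with `0 ≤ k < p`. -/
theorem exists_fin_of_nsmul_eq_zero {p : ℕ} (hp : 0 < p) (x : AddCircle (1 : ℚ))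
    (hx : p • x = 0) : ∃ k : Fin p, x = (((k : ℕ) : ℚ) / (p : ℚ) : ℚ) := by
  obtain ⟨r, rfl⟩ := QuotientAddGroup.mk_surjective x
  have hp0 : (p : ℚ) ≠ 0 := Nat.cast_ne_zero.2 hp.ne'
  have h1 : ((p • r : ℚ) : AddCircle (1 : ℚ)) = 0 := hx
  rw [AddCircle.coe_eq_zero_iff] at h1
  obtain ⟨m, hm⟩ := h1
  have hr : r = (m : ℚ) / p := by
    rw [eq_div_iff hp0]
    rw [nsmul_eq_mul, zsmul_eq_mul, mul_one] at hm
    rw [hm, mul_comm]
  have hk : 0 ≤ m % (p : ℤ) := Int.emod_nonneg _ (by exact_mod_cast hp.ne')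
  have hk' : m % (p : ℤ) < p := Int.emod_lt_of_pos _ (by exact_mod_cast hp)
  refine ⟨⟨(m % (p : ℤ)).toNat, by omega⟩, ?_⟩
  show ((r : ℚ) : AddCircle (1 : ℚ)) = _
  rw [hr, eq_comm, ← sub_eq_zero, ← AddCircle.coe_sub, AddCircle.coe_eq_zero_iff]
  refine ⟨-(m / (p : ℤ)), ?_⟩
  have hdiv : m = (p : ℤ) * (m / (p : ℤ)) + m % (p : ℤ) := (Int.mul_ediv_add_emod m p).symm
  have hcast : (((m % (p : ℤ)).toNat : ℕ) : ℚ) = ((m % (p : ℤ) : ℤ) : ℚ) := by
    have : (((m % (p : ℤ)).toNat : ℕ) : ℤ) = m % (p : ℤ) := Int.toNat_of_nonneg hk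
    exact_mod_cast congrArg (fun z : ℤ => (z : ℚ)) this
  simp only [hcast, zsmul_eq_mul, mul_one, Int.cast_neg]
  have hq : (m : ℚ) = (p : ℚ) * ((m / (p : ℤ) : ℤ) : ℚ) + ((m % (p : ℤ) : ℤ) : ℚ) := by
    exact_mod_cast congrArg (fun z : ℤ => (z : ℚ)) hdiv
  rw [hq]
  field_simp
  ring

/-- **A group embedding into `ℚ/ℤ` has at most `p` elements of `p`-torsion.** -/
theorem card_torsionBy_le_of_injective {A : Type*} [AddCommGroup A]
    (f : A →+ AddCircle (1 : ℚ)) (hf : Function.Injective f) {p : ℕ} (hp : 0 < p) :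
    Finite ↥(Submodule.torsionBy ℤ A (p : ℤ)) ∧
      Nat.card ↥(Submodule.torsionBy ℤ A (p : ℤ)) ≤ p := by
  classical
  have hmem : ∀ a : ↥(Submodule.torsionBy ℤ A (p : ℤ)), p • f (a : A) = 0 := by
    intro a
    have h1 : ((p : ℤ)) • (a : A) = 0 := (Submodule.mem_torsionBy_iff _ _).1 a.2
    rw [← map_nsmul, ← natCast_zsmul, h1, map_zero]
  choose k hk using fun a : ↥(Submodule.torsionBy ℤ A (p : ℤ)) =>
    exists_fin_of_nsmul_eq_zero hp (f (a : A)) (hmem a)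
  have hinj : Function.Injective k := by
    intro a b hab
    apply Subtype.ext
    apply hf
    rw [hk a, hk b, hab]
  have : Finite ↥(Submodule.torsionBy ℤ A (p : ℤ)) := Finite.of_injective k hinj
  refine ⟨inferInstance, ?_⟩
  calc Nat.card ↥(Submodule.torsionBy ℤ A (p : ℤ)) ≤ Nat.card (Fin p) :=
        Nat.card_le_card_of_injective k hinj
    _ = p := Nat.card_fin p

end Fermat.Agent.S55.KummerBr86.TorsionCircle
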